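import Fermat.Agent.S36.Base.Tame

/-!
# S36 / Base / KeyInputs : the base-level inputs of `Mod.key` for `(A0 A, L0 A)`, `q ∤ m`

* `exists_liesOverPrime`          : there is a place of `Qbar` over `q`;
* `exists_primitiveRoot_A0`       : `A0` contains a primitive `m`-th root of unity;
* `exists_pow_eq_of_dvd_sub_one`  : the `1`-units of `A0` are `m`-th powers;
* `not_dvd_natCast`               : `q ∤ m` in `A0`;
* `isUnit_natCast_A0`             : `m` is a unit of `A0`.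
-/

set_option autoImplicit false

open scoped Pointwise

namespace Fermat.Agent.S36.Base

open Fermat.Agent.S55.Places

noncomputable section

attribute [local instance] isAlgClosureQbar

variable {q : ℕ} {A : ValuationSubring Qbar}

theorem exists_liesOverPrime (hq : q.Prime) : ∃ A : ValuationSubring Qbar, A.LiesOverPrime q := by
  have : Fact q.Prime := ⟨hq⟩
  exact ⟨padicPlace q, padicPlace_liesOverPrime q⟩

theorem exists_primitiveRoot_A0 (hq : q.Prime) (hA : A.LiesOverPrime q) {m : ℕ} (hm : ¬ q ∣ m) :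
    ∃ ζ : A0 A, IsPrimitiveRoot ζ m := by
  have hm0 : m ≠ 0 := fun h0 => hm (h0 ▸ dvd_zero q)
  have : NeZero m := ⟨hm0⟩
  obtain ⟨ζ, hζ⟩ := HasEnoughRootsOfUnity.exists_primitiveRoot Qbar m
  have hζA : ζ ∈ A := mem_of_pow_mem hm0 (by rw [hζ.pow_eq_one]; exact A.one_mem)
  have hζL : ζ ∈ L0 A := mem_L0_of_pow_eq_one hq hA hm hζ.pow_eq_one
  refine ⟨⟨⟨ζ, hζL⟩, hζA⟩, ?_⟩
  refine IsPrimitiveRoot.of_map_of_injective
    (f := ((algebraMap (L0 A) Qbar).comp (A0 A).subtype)) (ζ := (⟨⟨ζ, hζL⟩, hζA⟩ : A0 A)) hζ ?_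
  exact (algebraMap (L0 A) Qbar).injective.comp Subtype.val_injective

theorem not_dvd_natCast (hq : q.Prime) (hA : A.LiesOverPrime q) {m : ℕ} (hm : ¬ q ∣ m) :
    ¬ ((q : ℕ) : A0 A) ∣ ((m : ℕ) : A0 A) := by
  intro h
  have hcop : Nat.Coprime q m := (Nat.Prime.coprime_iff_not_dvd hq).2 hm
  have hbez : IsCoprime (q : ℤ) (m : ℤ) := Nat.isCoprime_iff_coprime.2 hcop
  obtain ⟨a, b, hab⟩ := hbez
  have h1 : ((a : ℤ) : A0 A) * ((q : ℕ) : A0 A) + ((b : ℤ) : A0 A) * ((m : ℕ) : A0 A) = 1 := by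
    have := congrArg (fun z : ℤ => (z : A0 A)) hab
    push_cast at this
    exact this
  have h2 : ((q : ℕ) : A0 A) ∣ 1 := by
    rw [← h1]
    exact dvd_add (Dvd.intro_left _ rfl) (Dvd.dvd.mul_left h _)
  exact natCast_mem_nonunits_A0 hA (isUnit_of_dvd_one h2)

theorem isUnit_of_dvd_sub_one (hA : A.LiesOverPrime q) (u : A0 A)
    (hu : ((q : ℕ) : A0 A) ∣ u - 1) : IsUnit u := by
  by_contra hnu
  have h1 : u ∈ IsLocalRing.maximalIdeal (A0 A) := (IsLocalRing.mem_maximalIdeal _).2 hnu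
  have h2 : ((q : ℕ) : A0 A) ∈ IsLocalRing.maximalIdeal (A0 A) :=
    (IsLocalRing.mem_maximalIdeal _).2 (natCast_mem_nonunits_A0 hA)
  have h3 : u - 1 ∈ IsLocalRing.maximalIdeal (A0 A) := Ideal.mem_of_dvd _ hu h2
  have h4 : (1 : A0 A) ∈ IsLocalRing.maximalIdeal (A0 A) := by
    have := Ideal.sub_mem _ h1 h3
    rwa [sub_sub_cancel] at this
  exact (IsLocalRing.mem_maximalIdeal _).1 h4 isUnit_one

theorem exists_pow_eq_of_dvd_sub_one (hq : q.Prime) (hA : A.LiesOverPrime q) {m : ℕ}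
    (hm : ¬ q ∣ m) (u : A0 A) (hu : ((q : ℕ) : A0 A) ∣ u - 1) : ∃ c : A0 A, c ^ m = u := by
  obtain ⟨v, rfl⟩ := isUnit_of_dvd_sub_one hA u hu
  obtain ⟨e, he⟩ := exists_unit_pow_eq hq hA hm v
  exact ⟨e, by rw [← he]; simp⟩

theorem isUnit_natCast_A0 (hq : q.Prime) (hA : A.LiesOverPrime q) {m : ℕ} (hm : ¬ q ∣ m) :
    IsUnit ((m : ℕ) : A0 A) := by
  have hcop : Nat.Coprime q m := (Nat.Prime.coprime_iff_not_dvd hq).2 hm
  obtain ⟨a, b, hab⟩ : IsCoprime (q : ℤ) (m : ℤ) := Nat.isCoprime_iff_coprime.2 hcop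
  have h1 : ((a : ℤ) : A0 A) * ((q : ℕ) : A0 A) + ((b : ℤ) : A0 A) * ((m : ℕ) : A0 A) = 1 := by
    have := congrArg (fun z : ℤ => (z : A0 A)) hab
    push_cast at this
    exact this
  have h2 : IsUnit (((b : ℤ) : A0 A) * ((m : ℕ) : A0 A)) := by
    apply isUnit_of_dvd_sub_one hA
    refine ⟨-((a : ℤ) : A0 A), ?_⟩
    linear_combination h1
  exact isUnit_of_mul_isUnit_right h2

instance : CharZero (L0 A) := charZero_of_injective_algebraMap (algebraMap ℚ (L0 A)).injective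

end

end Fermat.Agent.S36.Base
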