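import Fermat.Agent.S36.Base.Dvr

/-!
# S36 / Base : the residue field of `A0 = A ∩ Qbar^{I_A}` is the residue field of `A`
(algebraically closed)
-/

set_option autoImplicit false

open scoped Pointwise
open Polynomial

namespace Fermat.Agent.S36.Base

open Fermat.Agent.S55.Places

noncomputable section

attribute [local instance] isAlgClosureQbar

variable {q : ℕ} {A : ValuationSubring Qbar}

/-- roots of unity of order prime to `q` lie in `L0`. -/
theorem mem_L0_of_pow_eq_one (hq : q.Prime) (hA : A.LiesOverPrime q) {n : ℕ} (hn : ¬ q ∣ n)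
    {ζ : Qbar} (hζ : ζ ^ n = 1) : ζ ∈ L0 A :=
  mem_L0_iff.mpr fun σ hσ => Fermat.Agent.S31.inertia_apply_root A hq hA σ hσ hn hζ

/-- the residue field of `A` is algebraic over `𝔽_q`. -/
theorem exists_pow_sub_mem_nonunits (hq : q.Prime) (hA : A.LiesOverPrime q) {a : Qbar}
    (ha : a ∈ A) : ∃ f : ℕ, 0 < f ∧ a ^ (q ^ f) - a ∈ A.nonunits := by
  have : Fact q.Prime := ⟨hq⟩
  obtain ⟨g, rfl⟩ := exists_smul_padicPlace_eq q A hA
  set y : Qbar := g⁻¹ a with hy
  have hfd : FiniteDimensional ℚ (IntermediateField.adjoin ℚ {y}) :=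
    IntermediateField.adjoin.finiteDimensional (Algebra.IsIntegral.isIntegral y)
  obtain ⟨f, hf, h⟩ := exists_residue_degree q (IntermediateField.adjoin ℚ {y})
  refine ⟨f, hf, ?_⟩
  have h1 := (h f).mpr dvd_rfl y (IntermediateField.mem_adjoin_simple_self ℚ y)
    ((mem_smul_padicPlace_iff q g a).mp ha)
  rw [transitive_mem_nonunits_smul_iff, mem_nonunits_iff_nrm, map_sub, map_pow]
  exact h1

/-- **the residue field of `L0` is the residue field of `Qbar`.** -/
theorem exists_mem_L0_sub_mem_nonunits (hq : q.Prime) (hA : A.LiesOverPrime q) {a : Qbar}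
    (ha : a ∈ A) : ∃ b ∈ L0 A, b ∈ A ∧ a - b ∈ A.nonunits := by
  classical
  by_cases ha0 : a ∈ A.nonunits
  · exact ⟨0, (L0 A).zero_mem, A.zero_mem, by rwa [sub_zero]⟩
  obtain ⟨f, hf, h⟩ := exists_pow_sub_mem_nonunits hq hA ha
  set n : ℕ := q ^ f - 1 with hn
  have hqf : 1 < q ^ f := Nat.one_lt_pow hf.ne' hq.one_lt
  have hn0 : 0 < n := by omega
  have hqn : ¬ q ∣ n := by
    intro hd
    have h1 : q ∣ q ^ f := dvd_pow_self q hf.ne'
    have h2 : q ∣ q ^ f - n := Nat.dvd_sub h1 hd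
    have h3 : q ^ f - n = 1 := by omega
    rw [h3] at h2
    exact hq.one_lt.ne' (Nat.dvd_one.mp h2)
  have hva : A.valuation a = 1 := by
    refine le_antisymm ((A.valuation_le_one_iff a).mpr ha) ?_
    rw [← not_lt]
    exact fun hlt => ha0 ((ValuationSubring.mem_nonunits_iff A).mpr hlt)
  have h1 : a ^ n - 1 ∈ A.nonunits := by
    rw [ValuationSubring.mem_nonunits_iff] at h ⊢
    have : a ^ (q ^ f) - a = a * (a ^ n - 1) := by
      have : q ^ f = n + 1 := by omega
      rw [this]; ring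
    rw [this, map_mul, hva, one_mul] at h
    exact h
  have : NeZero n := ⟨hn0.ne'⟩
  obtain ⟨z, hz⟩ : ∃ z : Qbar, IsPrimitiveRoot z n :=
    HasEnoughRootsOfUnity.exists_primitiveRoot Qbar n
  have hprod : a ^ n - 1 = ∏ ζ ∈ nthRootsFinset n (1 : Qbar), (a - ζ) := by
    have := congrArg (Polynomial.eval a) (X_pow_sub_one_eq_prod hn0 hz)
    simpa [eval_prod] using this
  by_contra hcon
  push Not at hcon
  have hall : ∀ ζ ∈ nthRootsFinset n (1 : Qbar), A.valuation (a - ζ) = 1 := by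
    intro ζ hζ
    have hζ1 : ζ ^ n = 1 := (mem_nthRootsFinset hn0 1).mp hζ
    have hζA : ζ ∈ A := Fermat.Agent.S31.mem_of_pow_eq_one A hn0.ne' hζ1
    refine le_antisymm ((A.valuation_le_one_iff _).mpr (A.sub_mem ha hζA)) ?_
    rw [← not_lt]
    intro hlt
    exact hcon ζ (mem_L0_of_pow_eq_one hq hA hqn hζ1) hζA
      ((ValuationSubring.mem_nonunits_iff A).mpr hlt)
  rw [ValuationSubring.mem_nonunits_iff, hprod, map_prod, Finset.prod_congr rfl hall,
    Finset.prod_const_one] at h1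
  exact lt_irrefl _ h1

/-- The residue field of a valuation subring of an algebraically closed field is algebraically
closed. -/
theorem isAlgClosed_residueField_of_isAlgClosed {K : Type*} [Field K] [IsAlgClosed K]
    (B : ValuationSubring K) : IsAlgClosed (IsLocalRing.ResidueField B) := by
  refine IsAlgClosed.of_exists_root _ fun p hp hirr => ?_
  obtain ⟨P, hPmap, hPdeg, hPmonic⟩ := Polynomial.lifts_and_degree_eq_and_monic
    ((Polynomial.mem_lifts p).mpr
      (Polynomial.map_surjective _ (IsLocalRing.residue_surjective (R := B)) p)) hp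
  have hdeg : (P.map (algebraMap B K)).degree ≠ 0 := by
    rw [hPmonic.degree_map, hPdeg]
    exact (Polynomial.degree_pos_of_irreducible hirr).ne'
  obtain ⟨z, hz⟩ := IsAlgClosed.exists_root _ hdeg
  have hzint : IsIntegral B z := ⟨P, hPmonic, by rwa [IsRoot.def, eval_map] at hz⟩
  obtain ⟨a, rfl⟩ := IsIntegrallyClosed.isIntegral_iff.mp hzint
  refine ⟨IsLocalRing.residue B a, ?_⟩
  rw [← hPmap, eval_map, Polynomial.eval₂_hom]
  have : P.eval a = 0 := by
    rw [IsRoot.def, eval_map, Polynomial.eval₂_hom] at hz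
    exact (FaithfulSMul.algebraMap_injective B K) (by rw [hz, map_zero])
  rw [this, map_zero]

/-- the inclusion `A0 → A`. -/
def inclA0 (A : ValuationSubring Qbar) : A0 A →+* A where
  toFun x := ⟨((x : L0 A) : Qbar), x.2⟩
  map_one' := rfl
  map_mul' _ _ := rfl
  map_zero' := rfl
  map_add' _ _ := rfl

@[simp] theorem coe_inclA0 (x : A0 A) : ((inclA0 A x : A) : Qbar) = ((x : L0 A) : Qbar) := rfl

/-- reduction `A0 → k_A`. -/
def resA0 (A : ValuationSubring Qbar) : A0 A →+* IsLocalRing.ResidueField A :=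
  (IsLocalRing.residue A).comp (inclA0 A)

theorem resA0_surjective (hq : q.Prime) (hA : A.LiesOverPrime q) :
    Function.Surjective (resA0 A) := by
  intro y
  obtain ⟨⟨a, ha⟩, rfl⟩ := IsLocalRing.residue_surjective y
  obtain ⟨b, hbL, hbA, hab⟩ := exists_mem_L0_sub_mem_nonunits hq hA ha
  refine ⟨⟨⟨b, hbL⟩, hbA⟩, ?_⟩
  show IsLocalRing.residue A ⟨b, hbA⟩ = IsLocalRing.residue A ⟨a, ha⟩
  rw [eq_comm, ← sub_eq_zero, ← map_sub, IsLocalRing.residue_eq_zero_iff,
    ← ValuationSubring.coe_mem_nonunits_iff]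
  exact hab

theorem resA0_eq_zero_iff (x : A0 A) : resA0 A x = 0 ↔ x ∈ IsLocalRing.maximalIdeal (A0 A) := by
  show IsLocalRing.residue A (inclA0 A x) = 0 ↔ _
  rw [IsLocalRing.residue_eq_zero_iff, IsLocalRing.mem_maximalIdeal, IsLocalRing.mem_maximalIdeal,
    mem_nonunits_iff, mem_nonunits_iff, not_iff_not]
  constructor
  · intro hu
    obtain ⟨v, hv⟩ := hu.exists_right_inv
    have hx0 : (x : L0 A) ≠ 0 := by
      intro h
      have h1 : ((inclA0 A x * v : A) : Qbar) = 1 := by rw [hv]; rfl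
      rw [MulMemClass.coe_mul, coe_inclA0, h] at h1
      simp at h1
    have hv' : ((v : A) : Qbar) = (((x : L0 A)⁻¹ : L0 A) : Qbar) := by
      have h1 : ((inclA0 A x * v : A) : Qbar) = 1 := by rw [hv]; rfl
      rw [MulMemClass.coe_mul, coe_inclA0] at h1
      have hx0' : ((x : L0 A) : Qbar) ≠ 0 := fun h => hx0 (Subtype.ext h)
      have h2 : (((x : L0 A)⁻¹ : L0 A) : Qbar) = (((x : L0 A)) : Qbar)⁻¹ := by simp
      rw [h2]
      exact eq_inv_of_mul_eq_one_right h1
    have hmem : (x : L0 A)⁻¹ ∈ A0 A := by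
      rw [mem_A0_iff, ← hv']
      exact v.2
    exact IsUnit.of_mul_eq_one (⟨(x : L0 A)⁻¹, hmem⟩ : A0 A) (Subtype.ext (mul_inv_cancel₀ hx0))
  · intro hu
    exact hu.map (inclA0 A)

theorem resA0_natCast (hA : A.LiesOverPrime q) : resA0 A (q : A0 A) = 0 := by
  rw [resA0_eq_zero_iff, IsLocalRing.mem_maximalIdeal]
  exact natCast_mem_nonunits_A0 hA

instance : IsAlgClosed (IsLocalRing.ResidueField A) := isAlgClosed_residueField_of_isAlgClosed A

end

end Fermat.Agent.S36.Base
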