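import Fermat.Agent.S36.Base.Residue

/-!
# S36 / Base / Tame : `A0` is "strictly henselian for tame Kummer equations"

* `mem_L0_of_pow_mem` : `y ^ m ∈ L0` a unit of `A`, `q ∤ m`  ⟹  `y ∈ L0`.
* `exists_zpow_mul_pow` : every `c ∈ L0ˣ` is `q ^ k * e ^ m`, `e` a unit of `A0`  (`q ∤ m`).
* `exists_unit_pow_eq` : every unit of `A0` is an `m`-th power of a unit of `A0`.
-/

set_option autoImplicit false

open scoped Pointwise

namespace Fermat.Agent.S36.Base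

open Fermat.Agent.S55.Places

noncomputable section

attribute [local instance] isAlgClosureQbar

variable {q : ℕ} {A : ValuationSubring Qbar}

theorem mem_of_pow_mem {m : ℕ} (hm : m ≠ 0) {y : Qbar} (h : y ^ m ∈ A) : y ∈ A := by
  rw [← A.valuation_le_one_iff] at h ⊢
  rw [map_pow] at h
  exact (pow_le_one_iff hm).1 h

theorem mem_L0_of_pow_mem (hq : q.Prime) (hA : A.LiesOverPrime q) {m : ℕ} (hm : ¬ q ∣ m) {y : Qbar}
    (hy : y ^ m ∈ L0 A) (h1 : y ^ m ∈ A) (h2 : (y ^ m)⁻¹ ∈ A) : y ∈ L0 A := by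
  have hm0 : m ≠ 0 := fun h0 => hm (h0 ▸ dvd_zero q)
  rw [mem_L0_iff]
  intro σ hσ
  by_cases hy0 : y = 0
  · rw [hy0, map_zero]
  have hyA : y ∈ A := mem_of_pow_mem hm0 h1
  have hyA' : y⁻¹ ∈ A := mem_of_pow_mem hm0 (by rwa [inv_pow])
  have hζ : (σ y * y⁻¹) ^ m = 1 := by
    rw [mul_pow, ← map_pow, mem_L0_iff.1 hy σ hσ, inv_pow, mul_inv_cancel₀ (pow_ne_zero m hy0)]
  have hsub : σ y * y⁻¹ - 1 ∈ A.nonunits := by
    have h3 := Fermat.Agent.S13.sub_mem_nonunits_of_mem_inertia hσ hyA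
    have h4 : σ y * y⁻¹ - 1 = (σ y - y) * y⁻¹ := by
      rw [sub_mul, mul_inv_cancel₀ hy0]
    rw [ValuationSubring.mem_nonunits_iff] at h3
    rw [h4, ValuationSubring.mem_nonunits_iff, map_mul]
    exact mul_lt_one_of_lt_of_le h3 ((A.valuation_le_one_iff _).2 hyA')
  have := Fermat.Agent.S31.eq_of_sub_mem_nonunits A hq hA hm hζ (one_pow m) hsub
  field_simp at this
  exact this

/-- every nonzero element of `L0` is a power of `q` times an `m`-th power of a unit of `A0`. -/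
theorem exists_zpow_mul_pow (hq : q.Prime) (hA : A.LiesOverPrime q) {m : ℕ} (hm : ¬ q ∣ m)
    (c : L0 A) (hc : c ≠ 0) :
    ∃ (k : ℤ) (e : L0 A), e ∈ A0 A ∧ e⁻¹ ∈ A0 A ∧ c = (q : L0 A) ^ k * e ^ m := by
  have hm0 : m ≠ 0 := fun h0 => hm (h0 ▸ dvd_zero q)
  have hc0 : (c : Qbar) ≠ 0 := fun h => hc (Subtype.ext h)
  obtain ⟨k, hk1, hk2⟩ := exists_zpow_mul_mem hq hA c.2 hc0
  obtain ⟨y, hy⟩ := IsAlgClosed.exists_pow_nat_eq ((c : Qbar) * (q : Qbar) ^ k) (Nat.pos_of_ne_zero hm0)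
  have hq0 : (q : Qbar) ≠ 0 := by exact_mod_cast hq.ne_zero
  have hq0' : (q : L0 A) ≠ 0 := by exact_mod_cast hq.ne_zero
  have hmem : (c : Qbar) * (q : Qbar) ^ k ∈ L0 A :=
    (L0 A).mul_mem c.2 (zpow_mem (natCast_mem (L0 A) q) k)
  have hyL : y ∈ L0 A := mem_L0_of_pow_mem hq hA hm (by rw [hy]; exact hmem) (by rw [hy]; exact hk1)
    (by rw [hy]; exact hk2)
  refine ⟨-k, ⟨y, hyL⟩, ?_, ?_, ?_⟩
  · rw [mem_A0_iff]
    exact mem_of_pow_mem hm0 (by rw [hy]; exact hk1)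
  · rw [mem_A0_iff]
    show (y : Qbar)⁻¹ ∈ A
    exact mem_of_pow_mem hm0 (by rw [inv_pow, hy]; exact hk2)
  · apply Subtype.ext
    show (c : Qbar) = ((q : L0 A) ^ (-k) * (⟨y, hyL⟩ : L0 A) ^ m : L0 A)
    have : (((q : L0 A) ^ (-k) * (⟨y, hyL⟩ : L0 A) ^ m : L0 A) : Qbar) = (q : Qbar) ^ (-k) * y ^ m := by
      show algebraMap (L0 A) Qbar ((q : L0 A) ^ (-k) * (⟨y, hyL⟩ : L0 A) ^ m) = _
      rw [map_mul, map_zpow₀, map_natCast, map_pow]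
      rfl
    rw [this, hy, zpow_neg]
    field_simp

/-- every unit of `A0` is an `m`-th power. -/
theorem exists_unit_pow_eq (hq : q.Prime) (hA : A.LiesOverPrime q) {m : ℕ} (hm : ¬ q ∣ m)
    (u : (A0 A)ˣ) : ∃ e : (A0 A)ˣ, e ^ m = u := by
  have hm0 : m ≠ 0 := fun h0 => hm (h0 ▸ dvd_zero q)
  obtain ⟨y, hy⟩ := IsAlgClosed.exists_pow_nat_eq (((u : A0 A) : L0 A) : Qbar) (Nat.pos_of_ne_zero hm0)
  have hu1 : (((u : A0 A) : L0 A) : Qbar) ∈ A := (u : A0 A).2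
  have hu2 : (((u : A0 A) : L0 A) : Qbar)⁻¹ ∈ A := by
    have h1 : (((u⁻¹ : (A0 A)ˣ) : A0 A) : L0 A) = ((u : A0 A) : L0 A)⁻¹ := by
      apply eq_inv_of_mul_eq_one_left
      have := congrArg (fun z : A0 A => (z : L0 A)) (Units.inv_mul u)
      exact this
    have h2 : ((((u⁻¹ : (A0 A)ˣ) : A0 A) : L0 A) : Qbar) ∈ A := ((u⁻¹ : (A0 A)ˣ) : A0 A).2
    rw [h1] at h2
    exact h2
  have hyL : y ∈ L0 A := mem_L0_of_pow_mem hq hA hm (by rw [hy]; exact ((u : A0 A) : L0 A).2)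
    (by rw [hy]; exact hu1) (by rw [hy]; exact hu2)
  have hyA : y ∈ A := mem_of_pow_mem hm0 (by rw [hy]; exact hu1)
  have hyA' : y⁻¹ ∈ A := mem_of_pow_mem hm0 (by rw [inv_pow, hy]; exact hu2)
  have hy0 : y ≠ 0 := by
    rintro rfl
    rw [zero_pow hm0] at hy
    have : ((u : A0 A) : L0 A) = 0 := Subtype.ext hy.symm
    exact u.ne_zero (Subtype.ext this)
  let e : A0 A := ⟨⟨y, hyL⟩, hyA⟩
  let e' : A0 A := ⟨⟨y⁻¹, (L0 A).inv_mem hyL⟩, hyA'⟩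
  have hee' : e * e' = 1 := by
    apply Subtype.ext
    apply Subtype.ext
    show y * y⁻¹ = 1
    exact mul_inv_cancel₀ hy0
  refine ⟨⟨e, e', hee', by rw [mul_comm]; exact hee'⟩, ?_⟩
  apply Units.ext
  apply Subtype.ext
  apply Subtype.ext
  show ((((e ^ m : A0 A)) : L0 A) : Qbar) = _
  rw [← hy]
  simp [e]

end

end Fermat.Agent.S36.Base
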