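import Fermat.Agent.S55.Places.Unram
import Fermat.Agent.S55.Places.Transitive

/-!
# S36 / Base : the inertia field `L0 = Qbar^{I_A}` and its valuation ring `A0 = A ∩ L0`

`A` a valuation subring of `Qbar` over the prime `q`.
* `L0 A`   : the fixed field of the inertia group of `A`;
* `A0 A`   : `A ∩ L0 A`, a valuation subring of `L0 A`;
* `exists_zpow_mul_mem` : the value group of `L0 A` is generated by `q` (`L0/ℚ` is unramified at `A`).
-/

set_option autoImplicit false

open scoped Pointwise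

namespace Fermat.Agent.S36.Base

open Fermat.Agent.S55.Places

noncomputable section

attribute [local instance] isAlgClosureQbar

/-- the inertia field of `A`. -/
def L0 (A : ValuationSubring Qbar) : IntermediateField ℚ Qbar :=
  IntermediateField.fixedField (A.inertiaSubgroupIn ℚ)

theorem mem_L0_iff {A : ValuationSubring Qbar} {x : Qbar} :
    x ∈ L0 A ↔ ∀ σ ∈ A.inertiaSubgroupIn ℚ, σ x = x := by
  unfold L0
  rw [IntermediateField.mem_fixedField_iff]

/-- `A0 = A ∩ L0`. -/
def A0 (A : ValuationSubring Qbar) : ValuationSubring (L0 A) :=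
  A.comap (algebraMap (L0 A) Qbar)

theorem mem_A0_iff {A : ValuationSubring Qbar} {x : L0 A} : x ∈ A0 A ↔ (x : Qbar) ∈ A := Iff.rfl

/-- **`L0/ℚ` is unramified at `A`**: every nonzero element of `L0` is a power of `q` times a unit
of `A`. -/
theorem exists_zpow_mul_mem {q : ℕ} (hq : q.Prime) {A : ValuationSubring Qbar}
    (hA : A.LiesOverPrime q) {x : Qbar} (hx : x ∈ L0 A) (h0 : x ≠ 0) :
    ∃ k : ℤ, x * (q : Qbar) ^ k ∈ A ∧ (x * (q : Qbar) ^ k)⁻¹ ∈ A := by
  have : Fact q.Prime := ⟨hq⟩
  obtain ⟨g, rfl⟩ := exists_smul_padicPlace_eq q A hA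
  set y : Qbar := g⁻¹ x with hy
  have hy0 : y ≠ 0 := by
    rw [hy]
    intro h
    exact h0 ((map_eq_zero_iff _ (g⁻¹ : GQ).injective).mp h)
  have hfd : FiniteDimensional ℚ (IntermediateField.adjoin ℚ {y}) :=
    IntermediateField.adjoin.finiteDimensional (Algebra.IsIntegral.isIntegral y)
  have hfix : ∀ h ∈ Iq q, h y = y := by
    intro h hh
    have h1 : g * h * g⁻¹ ∈ (g • padicPlace q).inertiaSubgroupIn ℚ := by
      rw [mem_inertia_smul_iff]
      have : g⁻¹ * (g * h * g⁻¹) * g = h := by group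
      rw [this]
      exact hh
    have h2 := mem_L0_iff.mp hx _ h1
    have h3 : (g * h * g⁻¹) x = g (h y) := rfl
    rw [h3] at h2
    have h4 : g⁻¹ (g (h y)) = h y := by
      show (g⁻¹ * g) (h y) = h y
      rw [inv_mul_cancel]; rfl
    rw [← h4, h2]
  have hI : Iq q ≤ (IntermediateField.adjoin ℚ {y}).fixingSubgroup := by
    intro h hh
    rw [IntermediateField.mem_fixingSubgroup_iff]
    intro z hz
    have hle : IntermediateField.adjoin ℚ {y} ≤ Fermat.Agent.S55.Places.Fix (Subgroup.zpowers h) := by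
      rw [IntermediateField.adjoin_simple_le_iff, mem_Fix_iff]
      intro k hk
      obtain ⟨m, rfl⟩ := Subgroup.mem_zpowers_iff.1 hk
      have hstab : h ∈ MulAction.stabilizer GQ y := hfix h hh
      exact (MulAction.stabilizer GQ y).zpow_mem hstab m
    exact (mem_Fix_iff).1 (hle hz) h (Subgroup.mem_zpowers h)
  obtain ⟨k, hk⟩ := nrm_of_unramified (q := q) (IntermediateField.adjoin ℚ {y}) hI
    (IntermediateField.mem_adjoin_simple_self ℚ y) hy0
  have hq0 : (q : ℝ) ≠ 0 := by exact_mod_cast hq.ne_zero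
  have hone : nrm q (g⁻¹ (x * (q : Qbar) ^ k)) = 1 := by
    rw [map_mul, map_zpow₀, map_natCast, nrm_mul, nrm_zpow, nrm_natCast_self, ← hy, hk,
      inv_zpow, mul_inv_cancel₀ (zpow_ne_zero _ hq0)]
  refine ⟨k, ?_, ?_⟩
  · rw [mem_smul_padicPlace_iff, hone]
  · rw [mem_smul_padicPlace_iff, map_inv₀, nrm_inv, hone, inv_one]

end

end Fermat.Agent.S36.Base
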