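import Fermat.Agent.S36.Base.Inertia
import Fermat.Agent.S55.Places.Residue
import Fermat.Agent.S31.Cyclo

/-!
# S36 / Base : `A0 = A ∩ Qbar^{I_A}` is a DVR with uniformiser `q` and algebraically closed
residue field
-/

set_option autoImplicit false

open scoped Pointwise

namespace Fermat.Agent.S36.Base

open Fermat.Agent.S55.Places

noncomputable section

attribute [local instance] isAlgClosureQbar

variable {q : ℕ} {A : ValuationSubring Qbar}

theorem natCast_mem_nonunits_A0 (hA : A.LiesOverPrime q) : ¬ IsUnit ((q : ℕ) : A0 A) := by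
  intro hu
  obtain ⟨v, hv⟩ := hu.exists_right_inv
  have h1 : (q : Qbar) * ((v : L0 A) : Qbar) = 1 := by
    have := congrArg (fun z : A0 A => ((z : L0 A) : Qbar)) hv
    simpa using this
  have hvA : ((v : L0 A) : Qbar) ∈ A := v.2
  have hq : (q : Qbar) ∈ A.nonunits := hA
  have h2 : (q : Qbar) * ((v : L0 A) : Qbar) ∈ A.nonunits := by
    rw [ValuationSubring.mem_nonunits_iff_exists_mem_maximalIdeal] at hq ⊢
    obtain ⟨hqA, hqm⟩ := hq
    exact ⟨A.mul_mem _ _ hqA hvA, Ideal.mul_mem_right (⟨_, hvA⟩ : A) _ hqm⟩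
  rw [h1] at h2
  rw [ValuationSubring.mem_nonunits_iff_exists_mem_maximalIdeal] at h2
  obtain ⟨h3, h4⟩ := h2
  exact (IsLocalRing.mem_maximalIdeal _).mp h4 (by
    have : (⟨1, h3⟩ : A) = 1 := rfl
    rw [this]; exact isUnit_one)

/-- every nonzero element of `A0` is a unit times a power of `q`. -/
theorem exists_unit_mul_pow (hq : q.Prime) (hA : A.LiesOverPrime q) (x : A0 A) (hx : x ≠ 0) :
    ∃ (n : ℕ) (u : (A0 A)ˣ), x = u * ((q : ℕ) : A0 A) ^ n := by
  have hx0 : ((x : L0 A) : Qbar) ≠ 0 := by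
    intro h
    apply hx
    apply Subtype.ext
    apply Subtype.ext
    exact h
  obtain ⟨k, hk1, hk2⟩ := exists_zpow_mul_mem hq hA (x : L0 A).2 hx0
  have hq0 : (q : Qbar) ≠ 0 := by exact_mod_cast hq.ne_zero
  have hq0' : (q : L0 A) ≠ 0 := by exact_mod_cast hq.ne_zero
  -- the unit
  let y : L0 A := (x : L0 A) * (q : L0 A) ^ k
  have hy : (y : Qbar) = ((x : L0 A) : Qbar) * (q : Qbar) ^ k := by
    show algebraMap (L0 A) Qbar ((x : L0 A) * (q : L0 A) ^ k) = _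
    rw [map_mul, map_zpow₀, map_natCast]
    rfl
  have hyA : y ∈ A0 A := by rw [mem_A0_iff, hy]; exact hk1
  have hyA' : y⁻¹ ∈ A0 A := by
    rw [mem_A0_iff]
    have : ((y⁻¹ : L0 A) : Qbar) = (((x : L0 A) : Qbar) * (q : Qbar) ^ k)⁻¹ := by
      rw [← hy]; simp
    rw [this]; exact hk2
  have hy0 : y ≠ 0 := mul_ne_zero (by intro h; exact hx (Subtype.ext h)) (zpow_ne_zero _ hq0')
  let u : (A0 A)ˣ := ⟨⟨y, hyA⟩, ⟨y⁻¹, hyA'⟩, Subtype.ext (mul_inv_cancel₀ hy0),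
    Subtype.ext (inv_mul_cancel₀ hy0)⟩
  -- `k ≤ 0`
  have hk : k ≤ 0 := by
    by_contra hpos
    rw [not_le] at hpos
    obtain ⟨n, rfl⟩ : ∃ n : ℕ, k = (n : ℤ) + 1 := ⟨(k - 1).toNat, by omega⟩
    apply natCast_mem_nonunits_A0 (q := q) hA
    have h1 : ((u : A0 A)) = (x * ((q : ℕ) : A0 A) ^ n) * ((q : ℕ) : A0 A) := by
      apply Subtype.ext
      show y = _
      simp only [y]
      push_cast
      rw [zpow_add₀ hq0', zpow_natCast, zpow_one, mul_assoc]
    exact isUnit_of_mul_isUnit_right (h1 ▸ u.isUnit)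
  obtain ⟨n, rfl⟩ : ∃ n : ℕ, k = -(n : ℤ) := ⟨(-k).toNat, by omega⟩
  refine ⟨n, u, ?_⟩
  apply Subtype.ext
  show (x : L0 A) = y * _
  simp only [y]
  push_cast
  rw [zpow_neg, zpow_natCast, mul_assoc, inv_mul_cancel₀ (pow_ne_zero _ hq0'), mul_one]

theorem irreducible_natCast (hq : q.Prime) (hA : A.LiesOverPrime q) :
    Irreducible ((q : ℕ) : A0 A) := by
  have hq0 : ((q : ℕ) : A0 A) ≠ 0 := by exact_mod_cast hq.ne_zero
  refine ⟨natCast_mem_nonunits_A0 hA, ?_⟩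
  intro a b hab
  have ha0 : a ≠ 0 := by rintro rfl; rw [zero_mul] at hab; exact hq0 hab
  have hb0 : b ≠ 0 := by rintro rfl; rw [mul_zero] at hab; exact hq0 hab
  obtain ⟨i, u, rfl⟩ := exists_unit_mul_pow hq hA a ha0
  obtain ⟨j, v, rfl⟩ := exists_unit_mul_pow hq hA b hb0
  rcases Nat.eq_zero_or_pos i with rfl | hi
  · left; simp
  rcases Nat.eq_zero_or_pos j with rfl | hj
  · right; simp
  exfalso
  obtain ⟨i, rfl⟩ : ∃ i', i = i' + 1 := ⟨i - 1, by omega⟩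
  obtain ⟨j, rfl⟩ : ∃ j', j = j' + 1 := ⟨j - 1, by omega⟩
  have h1 : ((q : ℕ) : A0 A) * 1 = ((q : ℕ) : A0 A) *
      (((q : ℕ) : A0 A) * ((u : A0 A) * v * ((q : ℕ) : A0 A) ^ i * ((q : ℕ) : A0 A) ^ j)) := by
    rw [mul_one]
    conv_lhs => rw [hab]
    ring
  have h2 := mul_left_cancel₀ hq0 h1
  exact natCast_mem_nonunits_A0 (q := q) hA (IsUnit.of_mul_eq_one _ h2.symm)

theorem isDiscreteValuationRing_A0 (hq : q.Prime) (hA : A.LiesOverPrime q) :
    IsDiscreteValuationRing (A0 A) := by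
  apply IsDiscreteValuationRing.ofHasUnitMulPowIrreducibleFactorization
  refine ⟨((q : ℕ) : A0 A), irreducible_natCast hq hA, ?_⟩
  intro x hx
  obtain ⟨n, u, rfl⟩ := exists_unit_mul_pow hq hA x hx
  exact ⟨n, u, by rw [mul_comm]⟩

end

end Fermat.Agent.S36.Base
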