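import Fermat.Agent.ES.B.Module
import Fermat.Agent.Crux.DescentAux

/-!
# S36 / Base : descent of invariant Kummer classes

`exists_rep_fixed`: a class `x ∈ Kum N m` which is fixed by a subgroup `H ≤ G_ℚ` is represented by a
function `f` which is itself fixed by `H` (coefficientwise).

Proof (additive Hilbert 90 / Poincaré series).  Normalise `f` to have leading coefficient `1`.  For `g` in
the (finite) `H`-orbit of `f` let `h(g)` be the unique `m`-th root of `g / f` in the function field with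
leading coefficient `1`.  Then `τ(h(g)) = h(τ g) / h(τ f)`, so `S = ∑_g h(g)` satisfies
`τ S = S / h(τ f)`, and `S ^ m * f` is `H`-invariant; `S ≠ 0` because `S = #orbit + O(q)`.
-/

set_option autoImplicit false

open ModularCurve

namespace Fermat.Agent.S36.Base

open Fermat.Agent.ES

noncomputable section

variable {N : ℕ}

/-- leading coefficient of the `q`-expansion. -/
def lc (f : FF N) : Qb := (f : LaurentSeries Qb).leadingCoeff

theorem lc_mul (f g : FF N) : lc (f * g) = lc f * lc g := HahnSeries.leadingCoeff_mul _ _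

theorem lc_one : lc (1 : FF N) = 1 := HahnSeries.leadingCoeff_one

theorem lc_pow (f : FF N) (n : ℕ) : lc (f ^ n) = lc f ^ n := by
  induction n with
  | zero => rw [pow_zero, pow_zero, lc_one]
  | succ n ih => rw [pow_succ, pow_succ, lc_mul, ih]

theorem lc_ne_zero {f : FF N} (hf : f ≠ 0) : lc f ≠ 0 :=
  HahnSeries.leadingCoeff_ne_zero.mpr fun h => hf (Subtype.ext h)

theorem lc_algebraMap (c : Qb) : lc (algebraMap Qb (FF N) c) = c := by
  show (algebraMap Qb (LaurentSeries Qb) c).leadingCoeff = c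
  rw [algebraMap_laurentSeries_eq_single]
  exact HahnSeries.leadingCoeff_of_single

theorem lc_galF (σ : GQ) (f : FF N) : lc (galF N σ f) = σ (lc f) := by
  show ((galF N σ f : FF N) : LaurentSeries Qb).leadingCoeff = _
  rw [coe_galF]
  exact Fermat.Agent.Crux.leadingCoeff_coeffMap _ σ.injective _

theorem lc_inv (f : FF N) : lc f⁻¹ = (lc f)⁻¹ := by
  by_cases hf : f = 0
  · subst hf
    have h0 : lc (0 : FF N) = 0 := HahnSeries.leadingCoeff_eq_zero.mpr rfl
    rw [inv_zero, h0, inv_zero]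
  · have h := lc_mul f f⁻¹
    rw [mul_inv_cancel₀ hf, lc_one] at h
    exact eq_inv_of_mul_eq_one_right h.symm

/-- order of the `q`-expansion. -/
def od (f : FF N) : ℤ := (f : LaurentSeries Qb).order

theorem od_mul {f g : FF N} (hf : f ≠ 0) (hg : g ≠ 0) : od (f * g) = od f + od g :=
  HahnSeries.order_mul (fun h => hf (Subtype.ext h)) (fun h => hg (Subtype.ext h))

theorem od_pow {f : FF N} (hf : f ≠ 0) (n : ℕ) : od (f ^ n) = n * od f := by
  induction n with
  | zero =>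
    rw [pow_zero]
    show (1 : LaurentSeries Qb).order = _
    rw [HahnSeries.order_one]; simp
  | succ n ih =>
    rw [pow_succ, od_mul (pow_ne_zero _ hf) hf, ih]
    push_cast; ring

theorem od_galF (σ : GQ) (f : FF N) : od (galF N σ f) = od f := by
  show ((galF N σ f : FF N) : LaurentSeries Qb).order = _
  rw [coe_galF]
  exact Fermat.Agent.Crux.order_coeffMap _ σ.injective _

theorem coeff_zero_of_od_of_lc {f : FF N} (h0 : od f = 0) (h1 : lc f = 1) :
    (f : LaurentSeries Qb).coeff 0 = 1 := by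
  have : lc f = (f : LaurentSeries Qb).coeff (od f) := HahnSeries.leadingCoeff_eq
  rw [← h0, ← this, h1]

/-- an `m`-th root of unity of the function field with leading coefficient `1` is `1`. -/
theorem eq_one_of_pow_eq_one {m : ℕ} (hm : m ≠ 0) {r : FF N} (hr : r ^ m = 1) (hlc : lc r = 1) :
    r = 1 := by
  have : NeZero m := ⟨hm⟩
  obtain ⟨z, hz⟩ : ∃ z : Qb, IsPrimitiveRoot z m :=
    HasEnoughRootsOfUnity.exists_primitiveRoot Qb m
  have hz' : IsPrimitiveRoot (algebraMap Qb (FF N) z) m :=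
    hz.map_of_injective (algebraMap Qb (FF N)).injective
  obtain ⟨i, -, hi⟩ := hz'.eq_pow_of_pow_eq_one hr
  rw [← map_pow] at hi
  rw [← hi, lc_algebraMap] at hlc
  rw [← hi, hlc, map_one]

theorem eq_of_pow_eq {m : ℕ} (hm : m ≠ 0) {r s : FF N} (hs : s ≠ 0) (h : r ^ m = s ^ m)
    (hr1 : lc r = 1) (hs1 : lc s = 1) : r = s := by
  have h1 : r / s = 1 := by
    apply eq_one_of_pow_eq_one hm
    · rw [div_pow, h, div_self (pow_ne_zero _ hs)]
    · rw [div_eq_mul_inv, lc_mul, lc_inv, hr1, hs1, inv_one, mul_one]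
  rwa [div_eq_one_iff_eq hs] at h1

/-- normalisation of an `m`-th root. -/
theorem exists_normalised_root {m : ℕ} (hm : m ≠ 0) {g h : FF N} (hg : lc g = 1)
    (hh : h ^ m = g) :
    ∃ h' : FF N, h' ^ m = g ∧ lc h' = 1 := by
  have hg0 : g ≠ 0 := by
    rintro rfl
    have h0 : lc (0 : FF N) = 0 := HahnSeries.leadingCoeff_eq_zero.mpr rfl
    rw [h0] at hg
    exact zero_ne_one hg
  have hh0 : h ≠ 0 := by
    rintro rfl
    rw [zero_pow hm] at hh
    exact hg0 hh.symm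
  have hc : lc h ≠ 0 := lc_ne_zero hh0
  refine ⟨algebraMap Qb (FF N) (lc h)⁻¹ * h, ?_, ?_⟩
  · have h1 : lc h ^ m = 1 := by rw [← lc_pow, hh, hg]
    rw [mul_pow, ← map_pow, inv_pow, h1, inv_one, map_one, one_mul, hh]
  · rw [lc_mul, lc_algebraMap, inv_mul_cancel₀ hc]

/-- the orbit of a function under a subgroup of `G_ℚ` is finite. -/
theorem finite_orbit [NeZero N] (H : Subgroup GQ) (f : FF N) :
    (Set.range fun σ : H => galF N (σ : GQ) f).Finite := by
  classical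
  obtain ⟨L, hL, hfix⟩ := exists_finite_level N f
  let r : H → (L →ₐ[ℚ] Qb) := fun σ => (((σ : GQ) : Qb ≃ₐ[ℚ] Qb) : Qb →ₐ[ℚ] Qb).comp L.val
  have hr : ∀ σ σ' : H, r σ = r σ' → galF N (σ : GQ) f = galF N (σ' : GQ) f := by
    intro σ σ' h
    have h1 : ∀ y ∈ L, ((σ : GQ)⁻¹ * (σ' : GQ)) y = y := by
      intro y hy
      have h2 : (σ : GQ) y = (σ' : GQ) y := DFunLike.congr_fun h ⟨y, hy⟩
      show (σ : GQ)⁻¹ ((σ' : GQ) y) = y
      rw [← h2]
      show ((σ : GQ)⁻¹ * (σ : GQ)) y = y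
      rw [inv_mul_cancel]; rfl
    have h3 := hfix _ h1
    have h4 : galF N ((σ : GQ) * ((σ : GQ)⁻¹ * (σ' : GQ))) f = galF N (σ : GQ) f := by
      rw [galF_mul, h3]
    rw [← h4, mul_inv_cancel_left]
  let G : (L →ₐ[ℚ] Qb) → FF N := fun φ =>
    if h : ∃ σ : H, r σ = φ then galF N (h.choose : GQ) f else 0
  refine (Set.finite_range G).subset ?_
  rintro _ ⟨σ, rfl⟩
  refine ⟨r σ, ?_⟩
  have h : ∃ σ' : H, r σ' = r σ := ⟨σ, rfl⟩
  show (if h : ∃ σ' : H, r σ' = r σ then galF N (h.choose : GQ) f else 0) = _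
  rw [dif_pos h]
  exact hr _ _ h.choose_spec

/-- the coefficient of `q^0`. -/
def c0 : FF N →+ Qb where
  toFun f := (f : LaurentSeries Qb).coeff 0
  map_zero' := rfl
  map_add' _ _ := rfl

/-- **Poincaré series.** -/
theorem exists_invariant_mul_pow [NeZero N] {m : ℕ} (hm : m ≠ 0) (H : Subgroup GQ) (f : FF N)
    (hf1 : lc f = 1) (hroot : ∀ σ ∈ H, ∃ h : FF N, h ^ m = galF N σ f / f) :
    ∃ S : FF N, S ≠ 0 ∧ ∀ τ ∈ H, galF N τ (S ^ m * f) = S ^ m * f := by
  classical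
  have hf0 : f ≠ 0 := by
    rintro rfl
    have h0 : lc (0 : FF N) = 0 := HahnSeries.leadingCoeff_eq_zero.mpr rfl
    rw [h0] at hf1
    exact zero_ne_one hf1
  have hgal0 : ∀ σ : GQ, galF N σ f ≠ 0 := fun σ h =>
    hf0 ((map_eq_zero_iff _ (galF N σ).injective).mp h)
  set Orb : Set (FF N) := Set.range fun σ : H => galF N (σ : GQ) f with hOrb
  have hfin : Orb.Finite := finite_orbit H f
  have hex : ∀ g ∈ Orb, ∃ h' : FF N, h' ^ m = g / f ∧ lc h' = 1 := by
    rintro _ ⟨σ, rfl⟩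
    obtain ⟨h, hh⟩ := hroot σ σ.2
    refine exists_normalised_root hm ?_ hh
    rw [div_eq_mul_inv, lc_mul, lc_inv, lc_galF, hf1, map_one, inv_one, mul_one]
  let R : FF N → FF N := fun g =>
    if hg : ∃ h' : FF N, h' ^ m = g / f ∧ lc h' = 1 then hg.choose else 0
  have hR : ∀ g ∈ Orb, R g ^ m = g / f ∧ lc (R g) = 1 := by
    intro g hg
    have h := hex g hg
    show (if hg : ∃ h' : FF N, h' ^ m = g / f ∧ lc h' = 1 then hg.choose else 0) ^ m = g / f ∧
      lc (if hg : ∃ h' : FF N, h' ^ m = g / f ∧ lc h' = 1 then hg.choose else 0) = 1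
    rw [dif_pos h]
    exact h.choose_spec
  have hR0 : ∀ g ∈ Orb, R g ≠ 0 := by
    intro g hg h
    have := (hR g hg).2
    rw [h] at this
    have h0 : lc (0 : FF N) = 0 := HahnSeries.leadingCoeff_eq_zero.mpr rfl
    rw [h0] at this
    exact zero_ne_one this
  have hmem : ∀ τ ∈ H, ∀ g ∈ Orb, galF N τ g ∈ Orb := by
    rintro τ hτ _ ⟨σ, rfl⟩
    exact ⟨⟨τ, hτ⟩ * σ, by
      show galF N (τ * (σ : GQ)) f = _
      rw [galF_mul]⟩
  have hfOrb : f ∈ Orb := ⟨1, by
    show galF N (1 : GQ) f = f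
    rw [galF_one]; rfl⟩
  have hod : ∀ g ∈ Orb, od (R g) = 0 := by
    rintro _ ⟨σ, rfl⟩
    have hg : galF N (σ : GQ) f ∈ Orb := ⟨σ, rfl⟩
    have h1 := (hR _ hg).1
    have h2 : R (galF N (σ : GQ) f) ^ m * f = galF N (σ : GQ) f := by
      rw [h1, div_mul_cancel₀ _ hf0]
    have h3 := congrArg od h2
    rw [od_mul (pow_ne_zero _ (hR0 _ hg)) hf0, od_pow (hR0 _ hg), od_galF] at h3
    have h4 : (m : ℤ) * od (R (galF N (σ : GQ) f)) = 0 := by linarith
    rcases mul_eq_zero.mp h4 with h5 | h5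
    · exact absurd (by exact_mod_cast h5) hm
    · exact h5
  -- the cocycle relation
  have hcoc : ∀ τ ∈ H, ∀ g ∈ Orb, galF N τ (R g) * R (galF N τ f) = R (galF N τ g) := by
    intro τ hτ g hg
    have hτf := hmem τ hτ f hfOrb
    have hτg := hmem τ hτ g hg
    apply eq_of_pow_eq hm (hR0 _ hτg)
    · rw [mul_pow, ← map_pow, (hR g hg).1, (hR _ hτf).1, (hR _ hτg).1, map_div₀]
      field_simp [hgal0 τ]
    · rw [lc_mul, lc_galF, (hR g hg).2, (hR _ hτf).2, map_one, mul_one]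
    · exact (hR _ hτg).2
  refine ⟨∑ g ∈ hfin.toFinset, R g, ?_, ?_⟩
  · intro h
    have h1 := congrArg c0 h
    have hc1 : ∀ g ∈ hfin.toFinset, c0 (R g) = (1 : Qb) := fun g hg =>
      coeff_zero_of_od_of_lc (hod g (hfin.mem_toFinset.mp hg)) (hR g (hfin.mem_toFinset.mp hg)).2
    rw [map_sum, map_zero, Finset.sum_congr rfl hc1,
      Finset.sum_const, nsmul_eq_mul, mul_one] at h1
    have h2 : hfin.toFinset.card = 0 := by exact_mod_cast h1
    rw [Finset.card_eq_zero] at h2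
    have : f ∈ hfin.toFinset := hfin.mem_toFinset.mpr hfOrb
    rw [h2] at this
    exact absurd this (Finset.notMem_empty _)
  · intro τ hτ
    have hτf := hmem τ hτ f hfOrb
    set S : FF N := ∑ g ∈ hfin.toFinset, R g with hS
    have h1 : galF N τ S * R (galF N τ f) = S := by
      rw [hS, map_sum, Finset.sum_mul]
      refine Finset.sum_bij (fun g _ => galF N τ g) ?_ ?_ ?_ ?_
      · intro g hg
        exact hfin.mem_toFinset.mpr (hmem τ hτ g (hfin.mem_toFinset.mp hg))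
      · intro g _ g' _ h
        exact (galF N τ).injective h
      · intro g hg
        refine ⟨galF N τ⁻¹ g, hfin.mem_toFinset.mpr
          (hmem τ⁻¹ (H.inv_mem hτ) g (hfin.mem_toFinset.mp hg)), ?_⟩
        rw [← galF_mul, mul_inv_cancel, galF_one]; rfl
      · intro g hg
        exact hcoc τ hτ g (hfin.mem_toFinset.mp hg)
    have h2 := (hR _ hτf).1
    rw [map_mul, map_pow]
    conv_rhs => rw [← h1, mul_pow, h2]
    field_simp

/-- **Descent of invariant classes**: a class fixed by `H` is represented by a function fixed by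
`H`. -/
theorem exists_rep_fixed (N m : ℕ) [NeZero N] (hm : m ≠ 0) (H : Subgroup GQ) (x : Kum N m)
    (hx : ∀ σ ∈ H, galKum N m σ x = x) :
    ∃ f : Dm N m, Kum.mk f = x ∧
      ∀ σ ∈ H, galF N σ ((f : (FF N)ˣ) : FF N) = ((f : (FF N)ˣ) : FF N) := by
  obtain ⟨f₀, rfl⟩ := Kum.mk_surjective x
  set φ₀ : FF N := ((f₀ : (FF N)ˣ) : FF N) with hφ₀
  have hφ₀0 : φ₀ ≠ 0 := (f₀ : (FF N)ˣ).ne_zero
  obtain ⟨d, hd⟩ := IsAlgClosed.exists_pow_nat_eq (lc φ₀) (Nat.pos_of_ne_zero hm)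
  have hd0 : d ≠ 0 := by
    rintro rfl
    rw [zero_pow hm] at hd
    exact lc_ne_zero hφ₀0 hd.symm
  set e : FF N := algebraMap Qb (FF N) d⁻¹ with he
  have he0 : e ≠ 0 := by
    rw [he, Ne, map_eq_zero]
    exact inv_ne_zero hd0
  set f₁ : FF N := e ^ m * φ₀ with hf₁
  have hlc : lc f₁ = 1 := by
    rw [hf₁, lc_mul, lc_pow, he, lc_algebraMap, inv_pow, hd, inv_mul_cancel₀ (lc_ne_zero hφ₀0)]
  have hroot : ∀ σ ∈ H, ∃ h : FF N, h ^ m = galF N σ f₁ / f₁ := by
    intro σ hσ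
    have h1 := hx σ hσ
    rw [galKum_mk, Kum.mk_eq_mk_iff] at h1
    obtain ⟨h, hh⟩ := h1
    have hh' : (h : FF N) ^ m = galF N σ φ₀ / φ₀ := by
      have := congrArg (fun u : (FF N)ˣ => (u : FF N)) hh
      simpa [div_eq_mul_inv] using this
    refine ⟨(h : FF N) * (galF N σ e / e), ?_⟩
    rw [mul_pow, hh', hf₁, map_mul, map_pow, div_pow]
    field_simp
  obtain ⟨S, hS0, hS⟩ := exists_invariant_mul_pow hm H f₁ hlc hroot
  let u : (FF N)ˣ := Units.mk0 (S * e) (mul_ne_zero hS0 he0)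
  have hu : u ^ m ∈ Dm N m := Pw_le_Dm N m ⟨u, rfl⟩
  refine ⟨⟨u ^ m, hu⟩ * f₀, ?_, ?_⟩
  · rw [Kum.mk_mul]
    have : Kum.mk (⟨u ^ m, hu⟩ : Dm N m) = 0 := (Kum.mk_eq_zero_iff _).mpr ⟨u, rfl⟩
    rw [this, zero_add]
  · intro σ hσ
    have h1 : (((⟨u ^ m, hu⟩ * f₀ : Dm N m) : (FF N)ˣ) : FF N) = S ^ m * f₁ := by
      show (S * e) ^ m * φ₀ = _
      rw [hf₁, mul_pow, mul_assoc]
    rw [h1]
    exact hS σ hσ

end

end Fermat.Agent.S36.Base
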