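import Fermat.Agent.S36.Base.Descent
import Fermat.Agent.S36.Base.Inertia

/-!
# S36 / Base : inertia-invariant Kummer classes are represented over the inertia field

`exists_rep_coeff_mem_L0`: a class of `Kum N m` fixed by the inertia group of `A` is represented by a
function all of whose `q`-expansion coefficients lie in `L0 A = Qbar^{I_A}`.
-/

set_option autoImplicit false

open ModularCurve

namespace Fermat.Agent.S36.Base

open Fermat.Agent.ES

noncomputable section

theorem exists_rep_coeff_mem_L0 (N m : ℕ) [NeZero N] (hm : m ≠ 0) (A : ValuationSubring Qb)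
    (x : Kum N m) (hx : ∀ σ ∈ A.inertiaSubgroupIn ℚ, galKum N m σ x = x) :
    ∃ f : Dm N m, Kum.mk f = x ∧
      ∀ n : ℤ, ((((f : (FF N)ˣ) : FF N) : LaurentSeries Qb)).coeff n ∈ L0 A := by
  obtain ⟨f, hf, hfix⟩ := exists_rep_fixed N m hm (A.inertiaSubgroupIn ℚ) x hx
  refine ⟨f, hf, fun n => mem_L0_iff.mpr fun σ hσ => ?_⟩
  have h := congrArg (fun g : FF N => (g : LaurentSeries Qb).coeff n) (hfix σ hσ)
  simpa [coe_galF] using h

end

end Fermat.Agent.S36.Base
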