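import Fermat.Agent.S36.Base.Residue
import Fermat.Agent.S54.Frobenius

/-!
# S36 / Base / FrobLift : a lift of Frobenius to the inertia field

`A` a valuation subring of `Qbar` over the prime `q`.  A Frobenius element `σ` at `A` normalises the inertia group, so it induces
ring endomorphisms `τK` of `L0 A` and `τA` of `A0 A = A ∩ L0 A`, and `τA` reduces to `x ↦ x^q` on the residue field.
-/

set_option autoImplicit false

open scoped Pointwise

namespace Fermat.Agent.S36.Base

open Fermat.Agent.S55.Places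

noncomputable section

attribute [local instance] isAlgClosureQbar

variable {A : ValuationSubring Qbar}

/-- an element of the decomposition group preserves the inertia field. -/
theorem map_mem_L0 {σ : GQ} (hσ : σ ∈ A.decompositionSubgroup ℚ) {x : Qbar} (hx : x ∈ L0 A) :
    σ x ∈ L0 A := by
  rw [mem_L0_iff] at hx ⊢
  rintro _ ⟨ρ, hρ, rfl⟩
  have hn : (A.inertiaSubgroup ℚ).Normal := by
    unfold ValuationSubring.inertiaSubgroup
    infer_instance
  have h1 := hn.conj_mem ρ hρ (⟨σ, hσ⟩ : A.decompositionSubgroup ℚ)⁻¹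
  have h2 := hx _ ⟨_, h1, rfl⟩
  have h3 : σ⁻¹ ((ρ : GQ) (σ x)) = x := by
    simpa using h2
  have h4 : σ (σ⁻¹ ((ρ : GQ) (σ x))) = σ x := congrArg σ h3
  have h5 : σ (σ⁻¹ ((ρ : GQ) (σ x))) = (ρ : GQ) (σ x) := by
    show (σ * σ⁻¹) ((ρ : GQ) (σ x)) = _
    rw [mul_inv_cancel]
    rfl
  rw [h5] at h4
  exact h4

/-- an element of the decomposition group preserves `A`. -/
theorem map_mem_A {σ : GQ} (hσ : σ ∈ A.decompositionSubgroup ℚ) {x : Qbar} (hx : x ∈ A) :
    σ x ∈ A := ((⟨σ, hσ⟩ : A.decompositionSubgroup ℚ) • (⟨x, hx⟩ : A)).2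

/-- **the Frobenius lift.** -/
theorem exists_frobLift {q : ℕ} (hq : q.Prime) (hA : A.LiesOverPrime q) :
    ∃ (τK : L0 A →+* L0 A) (τA : A0 A →+* A0 A),
      (∀ a : A0 A, τK (a : L0 A) = (τA a : L0 A)) ∧
        ∀ a : A0 A, resA0 A (τA a) = (resA0 A a) ^ q := by
  obtain ⟨σ, hσ, hfrob⟩ := Fermat.Agent.S54.exists_isFrobeniusAt q hq A hA
  let τK : L0 A →+* L0 A :=
    { toFun := fun x => ⟨σ (x : Qbar), map_mem_L0 hσ x.2⟩
      map_one' := Subtype.ext (map_one σ)
      map_mul' := fun x y => Subtype.ext (map_mul σ _ _)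
      map_zero' := Subtype.ext (map_zero σ)
      map_add' := fun x y => Subtype.ext (map_add σ _ _) }
  let τA : A0 A →+* A0 A :=
    { toFun := fun a => ⟨τK (a : L0 A), map_mem_A hσ a.2⟩
      map_one' := Subtype.ext (map_one τK)
      map_mul' := fun x y => Subtype.ext (map_mul τK _ _)
      map_zero' := Subtype.ext (map_zero τK)
      map_add' := fun x y => Subtype.ext (map_add τK _ _) }
  refine ⟨τK, τA, fun a => rfl, fun a => ?_⟩
  have h1 := hfrob (resA0 A a)
  rw [← h1]
  rfl

end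

end Fermat.Agent.S36.Base
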